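import Fermat.Agent.S05.Main

/-!
# S44 / E-side : the valuation of `x - x0` at a `p`-torsion point all of whose multiples are at the node

Extracted from the proof of `S05.fixed_mult` (no hypothesis on the residue characteristic besides `v 2 = 1`).
-/

set_option autoImplicit false

namespace Fermat.Agent.S44.ESide

open WeierstrassCurve WeierstrassCurve.Affine WeierstrassCurve.Affine.Point
open Fermat.Agent.S05

variable {K : Type*} [Field K] [DecidableEq K] {Γ₀ : Type*} [LinearOrderedCommGroupWithZero Γ₀]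
  (v : Valuation K Γ₀) {W : WeierstrassCurve.Affine K} {x0 c b' e0 : K} {p : ℕ}

theorem exists_multiple_val_eq (hp : p.Prime) (hp2 : p ≠ 2) (H : ShiftData W x0 c b')
    (h2 : v (2 : K) = 1) (hb' : v b' = 1) (he0 : e0 ≠ 0) (hcv : v c = v e0 ^ p) (hc1 : v c < 1)
    {P : W.Point} (hP : P ≠ 0) (hpP : p • P = 0)
    (hlt : ∀ j : ℤ, ¬ (p : ℤ) ∣ j → v (xc (j • P) - x0) < 1) :
    ∃ j0 : ℕ, ¬ p ∣ j0 ∧ v (xc (j0 • P) - x0) = v (e0 ^ 2) ∧ v (xc (j0 • P) - x0) < 1 ∧
      v c < v (xc (j0 • P) - x0) := by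
  have hp3 : 3 ≤ p := by
    have := hp.two_le; omega
  have hz := zsmul_eq_zero_iff_dvd hp hP hpP
  have hpj : ∀ j : ℤ, p • (j • P) = 0 := fun j => by rw [smul_comm, hpP, smul_zero]
  obtain ⟨j0, hj0, hmax⟩ := Finset.exists_max_image (Finset.Icc 1 (p - 1))
    (fun j : ℕ => v (xc (j • P) - x0)) ⟨1, by simp; omega⟩
  rw [Finset.mem_Icc] at hj0
  have hj0nd' : ¬ p ∣ j0 := by
    intro h
    have := Nat.le_of_dvd (by omega) h
    omega
  have hj0nd : ¬ (p : ℤ) ∣ (j0 : ℤ) := fun h => hj0nd' (Int.natCast_dvd_natCast.1 h)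
  obtain ⟨P', hP'⟩ : ∃ P', P' = (j0 : ℤ) • P := ⟨_, rfl⟩
  have hP'' : j0 • P = P' := by rw [hP', natCast_zsmul]
  refine ⟨j0, hj0nd', ?_⟩
  rw [hP'']
  have hP'0 : P' ≠ 0 := by rw [hP']; exact fun h => hj0nd ((hz _).1 h)
  have hpP' : p • P' = 0 := by rw [hP']; exact hpj _
  have hz' := zsmul_eq_zero_iff_dvd hp hP'0 hpP'
  have hpi : Prime (p : ℤ) := Nat.prime_iff_prime_int.1 hp
  have hmulnd : ∀ j : ℤ, ¬ (p : ℤ) ∣ j → ¬ (p : ℤ) ∣ j * j0 := by
    intro j hj h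
    rcases hpi.dvd_or_dvd h with h | h
    · exact hj h
    · exact hj0nd h
  have h2nd : ∀ j : ℤ, ¬ (p : ℤ) ∣ j → ¬ (p : ℤ) ∣ 2 * j := by
    intro j hj h
    rcases hpi.dvd_or_dvd h with h | h
    · have := Int.le_of_dvd (by norm_num) h
      omega
    · exact hj h
  have hsm : ∀ j : ℤ, j • P' = (j * j0) • P := fun j => by rw [hP', mul_smul]
  have hne0 : ∀ j : ℤ, ¬ (p : ℤ) ∣ j → j • P' ≠ 0 := fun j hj h => hj ((hz' j).1 h)
  have heta : ∀ j : ℤ, ¬ (p : ℤ) ∣ j →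
      2 * yc (j • P') + W.a₁ * xc (j • P') + W.a₃ ≠ 0 := by
    intro j hj h
    have h1 := (add_self_eq_zero_iff (hne0 j hj)).2 h
    rw [← two_zsmul, smul_smul] at h1
    exact h2nd j hj ((hz' _).1 h1)
  have hprod : ∀ j : ℤ, ¬ (p : ℤ) ∣ j →
      (xc (j • P') - x0) * (4 * (xc (j • P') - x0) ^ 2 + b' * (xc (j • P') - x0) + 4 * c) ≠ 0 := by
    intro j hj
    rw [← H.eta_sq (hne0 j hj)]
    exact pow_ne_zero 2 (heta j hj)
  have hc0 : c ≠ 0 := by
    intro h
    rw [h, _root_.map_zero] at hcv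
    exact (pow_ne_zero p ((v.ne_zero_iff).2 he0)) hcv.symm
  have hxne : ∀ i j : ℤ, ¬ (p : ℤ) ∣ i → ¬ (p : ℤ) ∣ j → ¬ (p : ℤ) ∣ i + j → ¬ (p : ℤ) ∣ i - j →
      xc (i • P') ≠ xc (j • P') := by
    intro i j hi hj hij hij'
    apply xc_ne_of_add_sub_ne_zero (hne0 i hi) (hne0 j hj)
    · rw [← add_smul]; exact hne0 _ hij
    · rw [← sub_smul]; exact hne0 _ hij'
  have key := mult_val v p hp hp2 (fun j => xc (j • P') - x0) c b' hc0 hb' h2
    (fun j hj => left_ne_zero_of_mul (hprod j hj))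
    (fun j hj => by
      rw [hsm]; exact hlt _ (hmulnd j hj))
    (fun i j hij => by
      have : i • P' = -(j • P') := by
        rw [eq_neg_iff_add_eq_zero, ← add_smul]; exact (hz' _).2 hij
      rw [this, xc_neg])
    (fun j hj => by
      obtain ⟨m, hm1, hm2, hm⟩ := exists_nat_rep hp hpP (j * j0) (hmulnd j hj)
      rw [hsm, hm, one_smul, hP', natCast_zsmul]
      exact hmax m (by rw [Finset.mem_Icc]; exact ⟨hm1, hm2⟩))
    (fun i j hi hj hij hij' h => hxne i j hi hj hij hij' (by simpa using h))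
    (fun i j hi hj hij hij' => by
      rw [add_smul, sub_smul]
      exact H.prod (hne0 i hi) (hne0 j hj) (hxne i j hi hj hij hij'))
    (fun j hj => right_ne_zero_of_mul (hprod j hj))
    (fun j hj => by
      have h1 : (2 * j) • P' = j • P' + j • P' := by rw [two_mul, add_smul]
      rw [h1]
      refine H.dbl (hne0 j hj) ?_
      rw [← h1]; exact hne0 _ (h2nd j hj))
  simp only [one_smul] at key
  have hXe : v (xc P' - x0) = v (e0 ^ 2) := by
    have h1 : v (xc P' - x0) ^ p = (v (e0 ^ 2)) ^ p := by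
      rw [key, hcv, map_pow, ← pow_mul, ← pow_mul, mul_comm]
    exact (pow_left_inj₀ zero_le zero_le (by omega)).1 h1
  have hXlt : v (xc P' - x0) < 1 := by
    have := hlt j0 hj0nd
    rwa [← hP'] at this
  have hcX : v c < v (xc P' - x0) := by
    by_contra hle
    rw [not_lt] at hle
    have h1 : v (xc P' - x0) ^ p ≤ v c ^ p := pow_le_pow_left₀ zero_le hle p
    have h2' : v c ^ p < v c ^ 2 :=
      pow_lt_pow_right_of_lt_one₀ (zero_lt_iff.2 ((v.ne_zero_iff).2 hc0)) hc1 (by omega)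
    rw [key] at h1
    exact absurd h1 (not_le.2 h2')
  exact ⟨hXe, hXlt, hcX⟩

end Fermat.Agent.S44.ESide
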