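import Fermat.Agent.S05.Slope

/-!
# S44 / E-side : quantitative version of `S05.fixed_of_val_eq`

`P` at the node with `v (x P - x0) = v e`, `e` fixed by `σ`, `v c < v (x P - x0)`.  If `s P ≠ P` and
`lam² x(sP - P)` is integral (torsion bound), then `σ` moves the unit `(x P - x0) / e` by at least `lam`.
-/

set_option autoImplicit false

namespace Fermat.Agent.S44.ESide

open WeierstrassCurve WeierstrassCurve.Affine WeierstrassCurve.Affine.Point
open Fermat.Agent.S05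

variable {K : Type*} [Field K] {Γ₀ : Type*} [LinearOrderedCommGroupWithZero Γ₀]
  (v : Valuation K Γ₀) {W : WeierstrassCurve.Affine K} {x0 c b' : K}

variable [DecidableEq K]

theorem far_of_val_eq (H : ShiftData W x0 c b') (σ : K →+* K) (s : W.Point →+ W.Point)
    (hs : ∀ P : W.Point, P ≠ 0 → s P ≠ 0 ∧ xc (s P) = σ (xc P) ∧ yc (s P) = σ (yc P))
    (hσ : ∀ x, v x ≤ 1 → v (σ x - x) < 1)
    (h₁ : v W.a₁ ≤ 1) (h₂ : v W.a₂ ≤ 1) (hσ₁ : σ W.a₁ = W.a₁) (hσ₃ : σ W.a₃ = W.a₃)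
    (hσx0 : σ x0 = x0) (hx0 : v x0 ≤ 1) (h2 : v (2 : K) = 1) (hb' : v b' = 1)
    {e : K} (he : e ≠ 0) (hσe : σ e = e)
    {P : W.Point} (hP : P ≠ 0)
    (hXe : v (xc P - x0) = v e) (hXlt : v (xc P - x0) < 1) (hcX : v c < v (xc P - x0))
    {lam : K} (hlam0 : lam ≠ 0) (hlam1 : v lam ≤ 1)
    (hsP : s P ≠ P) (hbound : v (lam ^ 2 * xc (s P - P)) ≤ 1) :
    v lam ≤ v (σ ((xc P - x0) / e) - (xc P - x0) / e) := by
  by_contra hcon
  rw [not_le] at hcon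
  obtain ⟨hsP0, hx1, hy1⟩ := hs P hP
  obtain ⟨x2, hx2⟩ : ∃ x2, x2 = xc P := ⟨_, rfl⟩
  obtain ⟨y2, hy2⟩ : ∃ y2, y2 = yc P := ⟨_, rfl⟩
  obtain ⟨x1, hx1'⟩ : ∃ x1, x1 = xc (s P) := ⟨_, rfl⟩
  obtain ⟨y1, hy1'⟩ : ∃ y1, y1 = yc (s P) := ⟨_, rfl⟩
  obtain ⟨X2, hX2⟩ : ∃ X2, X2 = x2 - x0 := ⟨_, rfl⟩
  obtain ⟨X1, hX1⟩ : ∃ X1, X1 = x1 - x0 := ⟨_, rfl⟩
  have hve : v e ≠ 0 := (v.ne_zero_iff).2 he
  have hvlam : 0 < v lam := zero_lt_iff.2 ((v.ne_zero_iff).2 hlam0)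
  have hvX2 : v X2 = v e := by rw [hX2, hx2]; exact hXe
  have hX2lt : v X2 < 1 := by rw [hX2, hx2]; exact hXlt
  have hcX2 : v c < v X2 := by rw [hX2, hx2]; exact hcX
  have hX2ne : X2 ≠ 0 := (v.ne_zero_iff).1 (hvX2 ▸ hve)
  have hvX2pos : 0 < v X2 := zero_lt_iff.2 (hvX2 ▸ hve)
  have hσX : σ X2 = X1 := by
    rw [hX2, hX1, map_sub, hσx0, hx2, hx1', hx1]
  -- `v (X1 - X2) < v lam * v X2`
  have hdiff' : v (X1 - X2) < v lam * v X2 := by
    rw [← hx2, ← hX2, map_div₀, hσX, hσe, ← sub_div, map_div₀,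
      div_lt_iff₀ (zero_lt_iff.2 hve)] at hcon
    rwa [hvX2]
  have hdiff : v (X1 - X2) < v X2 := lt_of_lt_of_le hdiff' (mul_le_of_le_one_left' hlam1)
  have hvX1 : v X1 = v X2 := by
    have : X1 = (X1 - X2) + X2 := by ring
    rw [this]
    exact v.map_add_eq_of_lt_right hdiff
  have hX1ne : X1 ≠ 0 := (v.ne_zero_iff).1 (hvX1 ▸ hvX2pos.ne')
  obtain ⟨η2, hη2⟩ : ∃ η2, η2 = 2 * y2 + W.a₁ * x2 + W.a₃ := ⟨_, rfl⟩
  obtain ⟨η1, hη1⟩ : ∃ η1, η1 = 2 * y1 + W.a₁ * x1 + W.a₃ := ⟨_, rfl⟩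
  have hση : σ η2 = η1 := by
    rw [hη2, hη1, map_add, map_add, map_mul, map_mul, hσ₁, hσ₃, map_ofNat, hx2, hy2, hx1', hy1',
      hx1, hy1]
  have hsq : η2 ^ 2 = X2 * (4 * X2 ^ 2 + b' * X2 + 4 * c) := by
    rw [hη2, hX2, hx2, hy2]; exact H.eta_sq hP
  have h4 : v (4 : K) = 1 := by
    have : (4 : K) = 2 * 2 := by norm_num
    rw [this, map_mul, h2, one_mul]
  obtain ⟨w, hw⟩ : ∃ w, w = η2 / X2 := ⟨_, rfl⟩
  have hwsq : w ^ 2 = b' + (4 * X2 + 4 * c / X2) := by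
    rw [hw, div_pow, hsq]
    field_simp
    ring
  have hvw : v w = 1 := by
    have h1 : v (4 * X2 + 4 * c / X2) < 1 := by
      apply v.map_add_lt
      · rw [map_mul, h4, one_mul]; exact hX2lt
      · rw [map_div₀, map_mul, h4, one_mul, div_lt_one₀ hvX2pos]; exact hcX2
    have h3 : v (w ^ 2) = 1 := by
      rw [hwsq, ← hb']
      exact v.map_add_eq_of_lt_left (by rw [hb']; exact h1)
    rw [map_pow] at h3
    exact (pow_eq_one_iff_of_nonneg zero_le (by norm_num)).1 h3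
  have hσw : σ w = η1 / X1 := by rw [hw, map_div₀, hση, hσX]
  have hdw : v (σ w - w) < 1 := hσ w hvw.le
  have hsum : η1 + η2 = ((σ w - w) * X1 + w * (X1 - X2)) + 2 * w * X2 := by
    rw [hσw, hw]
    field_simp
    ring
  have hvsum : v (η1 + η2) = v X2 := by
    have h3 : v (2 * w * X2) = v X2 := by rw [map_mul, map_mul, h2, hvw, one_mul, one_mul]
    rw [hsum, ← h3]
    apply v.map_add_eq_of_lt_right
    rw [h3]
    apply v.map_add_lt
    · rw [map_mul, hvX1]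
      exact mul_lt_of_lt_one_left hvX2pos hdw
    · rw [map_mul, hvw, one_mul]; exact hdiff
  have hsumne : η1 + η2 ≠ 0 := (v.ne_zero_iff).1 (hvsum ▸ hvX2pos.ne')
  have hvx2 : v x2 ≤ 1 := by
    have : x2 = X2 + x0 := by rw [hX2]; ring
    rw [this]; exact v.map_add_le hX2lt.le hx0
  have hvx1 : v x1 ≤ 1 := by
    have : x1 = X1 + x0 := by rw [hX1]; ring
    rw [this]; exact v.map_add_le (hvX1 ▸ hX2lt.le) hx0
  by_cases hxx : x1 = x2
  · rcases (xc_eq_iff hsP0 hP).1 (by rw [← hx1', ← hx2, hxx]) with h | h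
    · exact hsP h
    · apply hsumne
      have hy : y1 = W.negY x2 y2 := by rw [hy1', h, yc_neg hP, hx2, hy2]
      rw [hη1, hη2, hy, hxx]
      simp only [negY]
      ring
  · have hxx' : xc (s P) ≠ xc P := by rwa [← hx1', ← hx2]
    rw [xc_sub_of_xc_ne hsP0 hP hxx'] at hbound
    simp only [addX, ← hx1', ← hx2, ← hy1', ← hy2] at hbound
    obtain ⟨l, hl⟩ : ∃ l, l = W.slope x1 x2 y1 (W.negY x2 y2) := ⟨_, rfl⟩
    rw [← hl] at hbound
    have hd : x1 - x2 ≠ 0 := sub_ne_zero.2 hxx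
    have h2ne : (2 : K) ≠ 0 := H.h2
    have hslope : l * (x1 - x2) = (η1 + η2) / 2 - W.a₁ * (x1 - x2) / 2 := by
      rw [hl, slope_of_X_ne hxx, hη1, hη2]
      simp only [negY]
      field_simp
      ring
    have hlam2 : v (lam ^ 2) ≤ 1 := by rw [map_pow]; exact pow_le_one' hlam1 2
    have hlint : v (lam * l) ≤ 1 := by
      refine val_le_one_of_quadratic v (a := W.a₁ * lam)
        (c := lam ^ 2 * (l ^ 2 + W.a₁ * l - W.a₂ - x1 - x2) + lam ^ 2 * (W.a₂ + x1 + x2))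
        (val_mul_le_one v h₁ hlam1) ?_ (by ring)
      exact val_add_le_one v hbound
        (val_mul_le_one v hlam2 (val_add_le_one v (val_add_le_one v h₂ hvx1) hvx2))
    have hdx : x1 - x2 = X1 - X2 := by rw [hX1, hX2]; ring
    have hvd' : v (x1 - x2) < v lam * v X2 := by rw [hdx]; exact hdiff'
    have hvd : v (x1 - x2) < v X2 := by rw [hdx]; exact hdiff
    have hRv : v ((η1 + η2) / 2 - W.a₁ * (x1 - x2) / 2) = v X2 := by
      have h3 : v ((η1 + η2) / 2) = v X2 := by rw [map_div₀, h2, div_one, hvsum]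
      rw [← h3]
      apply v.map_sub_eq_of_lt_left
      rw [h3, map_div₀, h2, div_one, map_mul]
      exact lt_of_le_of_lt (mul_le_of_le_one_left' h₁) hvd
    have hL : v lam * v (l * (x1 - x2)) < v lam * v X2 := by
      have e1 : v lam * v (l * (x1 - x2)) = v (lam * l) * v (x1 - x2) := by
        rw [map_mul, map_mul, mul_assoc]
      rw [e1]
      exact lt_of_le_of_lt (mul_le_of_le_one_left' hlint) hvd'
    rw [hslope, hRv] at hL
    exact lt_irrefl _ hL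

end Fermat.Agent.S44.ESide
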