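import Fermat.Agent.S44.ESide.Defs
import Fermat.Agent.S44.ESide.Quant
import Fermat.Agent.S44.ESide.NodeVal

/-!
# S44 / E-side : abstract Galois lemmas at a multiplicative prime `p` (`p ∣ v_p(Δ)`)

* `exists_sub_nonintegral` : `P ∈ E[p]` all of whose prime-to-`p` multiples are integral, `s P ≠ P` ⟹ some
  `s (jP) - jP` is not integral;
* `nonintegral_of_eigen_mult` : `s t = c t`, `c ≢ 1 mod p` ⟹ `x(t)` is not integral;
* `exists_far_mult` : `P` as above, `v λ ^ (p-1) = v p` ⟹ `σ` moves one of the integers `x(jP)`, `y(jP)`, `(x(jP) - x0)/e0²` by at least `λ`.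
-/

set_option autoImplicit false

namespace Fermat.Agent.S44.ESide

open WeierstrassCurve WeierstrassCurve.Affine WeierstrassCurve.Affine.Point
open Fermat.Agent.S05 Fermat.Agent.HW.AtP

variable {K : Type*} [Field K] [DecidableEq K] {A : ValuationSubring K}
  {W : WeierstrassCurve.Affine K} {p : ℕ} {σ : K →+* K} {s : W.Point →+ W.Point}
  {x0 c b' e0 : K}

omit [DecidableEq K] in
lemma val_two (D : PData A p) : A.valuation (2 : K) = 1 := by
  have := D.val_natCast (k := 2) (by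
    intro h
    exact D.hp2 ((Nat.prime_dvd_prime_iff_eq D.hp Nat.prime_two).1 h))
  simpa using this

lemma exists_inv_nsmul (hp : p.Prime) {t : W.Point} (hpt : p • t = 0) {j : ℕ} (hj : ¬ p ∣ j) :
    ∃ m : ℕ, ¬ p ∣ m ∧ m • (j • t) = t := by
  have hcop : Nat.Coprime j p := ((Nat.Prime.coprime_iff_not_dvd hp).2 hj).symm
  obtain ⟨m, -, hm⟩ := Nat.exists_mul_mod_eq_one_of_coprime hcop hp.one_lt
  refine ⟨m, ?_, ?_⟩
  · intro h
    have : j * m % p = 0 := Nat.mod_eq_zero_of_dvd (Dvd.dvd.mul_left h j)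
    omega
  · rw [← mul_smul, mul_comm, nsmul_eq_mod_nsmul hpt, hm, one_smul]

/-- if one prime-to-`p` multiple of `t` is not integral, `t` is not integral. -/
lemma nonintegral_of_multiple (I : IntData A W) (D : PData A p) {t : W.Point} (ht : t ≠ 0)
    (hpt : p • t = 0) {j : ℕ} (hj : ¬ p ∣ j) (h : 1 < A.valuation (xc (j • t))) :
    1 < A.valuation (xc t) := by
  obtain ⟨m, hm, hmt⟩ := exists_inv_nsmul D.hp hpt hj
  have h0 : j • t ≠ 0 := nsmul_ne_zero_of_not_dvd D.hp ht hpt hj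
  have h2 := (val_xc_nsmul A.valuation ((A.valuation_le_one_iff _).2 I.b₂)
    ((A.valuation_le_one_iff _).2 I.b₄) ((A.valuation_le_one_iff _).2 I.b₆)
    ((A.valuation_le_one_iff _).2 I.b₈) h0 h (D.val_natCast hm)).2
  rw [hmt] at h2
  rw [h2]; exact h

lemma smul_ne_of_ne (hp : p.Prime) {P : W.Point} (hpP : p • P = 0) (hsP : s P ≠ P) {j : ℕ}
    (hj : ¬ p ∣ j) : s (j • P) ≠ j • P := by
  intro h
  apply hsP
  refine fixed_of_multiple hp hpP (j := (j : ℤ)) (fun h' => hj (Int.natCast_dvd_natCast.1 h')) ?_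
  rw [natCast_zsmul]; exact h

/-- the dichotomy for a torsion point all of whose prime-to-`p` multiples are integral. -/
lemma node_or_smooth (D : PData A p) (M : MultData A W p x0 c b' e0)
    {P : W.Point} (hP : P ≠ 0) (hpP : p • P = 0)
    (hint : ∀ j : ℕ, ¬ p ∣ j → A.valuation (xc (j • P)) ≤ 1) :
    (∃ j : ℕ, ¬ p ∣ j ∧ A.valuation (xc (j • P) - x0) = 1) ∨
    (∃ j : ℕ, ¬ p ∣ j ∧ A.valuation (xc (j • P) - x0) = A.valuation (e0 ^ 2) ∧
      A.valuation (xc (j • P) - x0) < 1 ∧ A.valuation c < A.valuation (xc (j • P) - x0)) := by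
  by_cases hex : ∃ j : ℕ, ¬ p ∣ j ∧ A.valuation (xc (j • P) - x0) = 1
  · exact Or.inl hex
  · right
    refine exists_multiple_val_eq A.valuation D.hp D.hp2 M.H (val_two D) M.hb' M.he0 M.hcv M.hc1
      hP hpP ?_
    intro j hj
    obtain ⟨m, hm1, hm2, hm⟩ := exists_nat_rep D.hp hpP j hj
    have hpm : ¬ p ∣ m := by
      intro hd
      have := Nat.le_of_dvd (by omega) hd
      have := D.hp.pos
      omega
    rw [hm]
    refine lt_of_le_of_ne (Valuation.map_sub_le _ (hint m hpm) M.hx0) ?_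
    intro h
    exact hex ⟨m, hpm, h⟩

theorem exists_sub_nonintegral (I : IntData A W) (D : PData A p) (G : GalData A W σ s)
    (M : MultData A W p x0 c b' e0) (Fx : FixData W x0 e0 σ)
    {P : W.Point} (hP : P ≠ 0) (hpP : p • P = 0)
    (hint : ∀ j : ℕ, ¬ p ∣ j → A.valuation (xc (j • P)) ≤ 1) (hsP : s P ≠ P) :
    ∃ j : ℕ, ¬ p ∣ j ∧ 1 < A.valuation (xc (s (j • P) - j • P)) := by
  have v₁ := (A.valuation_le_one_iff _).2 I.h₁
  have v₂ := (A.valuation_le_one_iff _).2 I.h₂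
  have v₃ := (A.valuation_le_one_iff _).2 I.h₃
  have v₄ := (A.valuation_le_one_iff _).2 I.h₄
  rcases node_or_smooth D M hP hpP hint with ⟨j, hj, hX⟩ | ⟨j, hj, hXe, hXlt, hcX⟩
  · refine ⟨j, hj, ?_⟩
    have hR : j • P ≠ 0 := nsmul_ne_zero_of_not_dvd D.hp hP hpP hj
    have hx := hint j hj
    have hy : A.valuation (yc (j • P)) ≤ 1 := y_integral A I.h₁ I.h₂ I.h₃ I.h₄ I.h₆ hR hx
    obtain ⟨hs0, hsx, hsy⟩ := G.hs _ hR
    have hns := nonsingular_of_not_node A.valuation M.H v₁ v₂ v₃ v₄ (val_two D) M.hb' M.hc1 hR hx hy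
      hX
    have key := sub_eq_zero_or_nonintegral A.valuation v₁ v₂ v₃ v₄
      hs0 hR (by rw [hsx]; exact G.val_le hx) (by rw [hsy]; exact G.val_le hy) hx hy
      (by rw [hsx]; exact G.hσ _ hx) (by rw [hsy]; exact G.hσ _ hy) hns
    rcases key with h | h
    · exact absurd (sub_eq_zero.1 h) (smul_ne_of_ne D.hp hpP hsP hj)
    · exact h
  · refine ⟨j, hj, ?_⟩
    have hR : j • P ≠ 0 := nsmul_ne_zero_of_not_dvd D.hp hP hpP hj
    by_contra hcon
    exact smul_ne_of_ne D.hp hpP hsP hj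
      (fixed_of_val_eq A.valuation M.H σ s G.hs G.hσ v₁ v₂ Fx.h₁ Fx.h₃ Fx.hx0 M.hx0 (val_two D)
        M.hb' (pow_ne_zero 2 M.he0) (by rw [map_pow, Fx.he0]) hR hXe hXlt hcX
        (Or.inr (not_lt.1 hcon)))

theorem nonintegral_of_eigen_mult (I : IntData A W) (D : PData A p) (G : GalData A W σ s)
    (M : MultData A W p x0 c b' e0) (Fx : FixData W x0 e0 σ)
    {t : W.Point} (ht : t ≠ 0) (hpt : p • t = 0) {cc : ℕ}
    (hc : ¬ (p : ℤ) ∣ (cc : ℤ) - 1) (hst : s t = cc • t) : 1 < A.valuation (xc t) := by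
  by_contra hcon
  have hint : ∀ j : ℕ, ¬ p ∣ j → A.valuation (xc (j • t)) ≤ 1 := by
    intro j hj
    by_contra h
    exact hcon (nonintegral_of_multiple I D ht hpt hj (not_le.1 h))
  have hst' : s t ≠ t := by
    intro h
    have h1 : ((cc : ℤ) - 1) • t = 0 := by
      rw [sub_smul, natCast_zsmul, one_smul, ← hst, h, sub_self]
    exact hc ((zsmul_eq_zero_iff_dvd D.hp ht hpt _).1 h1)
  obtain ⟨j, hj, h⟩ := exists_sub_nonintegral I D G M Fx ht hpt hint hst'
  have hw : s (j • t) - j • t = (((cc : ℤ) - 1) * j) • t := by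
    rw [map_nsmul, hst, mul_smul, sub_smul, natCast_zsmul, natCast_zsmul, one_smul, smul_comm]
  have hnd : ¬ (p : ℤ) ∣ ((cc : ℤ) - 1) * j := by
    intro hd
    rcases (Nat.prime_iff_prime_int.1 D.hp).dvd_or_dvd hd with h' | h'
    · exact hc h'
    · exact hj (Int.natCast_dvd_natCast.1 h')
  obtain ⟨m, hm1, hm2, hm⟩ := exists_nat_rep D.hp hpt _ hnd
  have hpm : ¬ p ∣ m := by
    intro hd
    have := Nat.le_of_dvd (by omega) hd
    have := D.hp.pos
    omega
  rw [hw, hm] at h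
  exact absurd (hint m hpm) (not_le.2 h)

/-- `lam² x(u)` is integral for `0 ≠ u ∈ E[p]`, `v lam ^ (p-1) = v p`. -/
lemma val_lam_sq_mul_le (I : IntData A W) (D : PData A p) {u : W.Point} (hu : u ≠ 0)
    (hpu : p • u = 0) {lam : K} (hlam : A.valuation lam ^ (p - 1) = A.valuation (p : K)) :
    A.valuation (lam ^ 2 * xc u) ≤ 1 := by
  obtain ⟨j, hj1, hj⟩ := D.exists_half
  have hb := torsion_bound I D hu hpu hj
  have e : A.valuation (p : K) * A.valuation (xc u) ^ j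
      = A.valuation (lam ^ 2 * xc u) ^ j := by
    rw [← hlam, map_mul, mul_pow, map_pow, ← pow_mul]
    congr 2
    omega
  rw [e] at hb
  by_contra h
  exact absurd hb (not_le.2 (one_lt_pow₀ (not_le.1 h) (by omega)))

omit [DecidableEq K] in
lemma lam_props (D : PData A p) {lam : K}
    (hlam : A.valuation lam ^ (p - 1) = A.valuation (p : K)) :
    lam ≠ 0 ∧ A.valuation lam ≤ 1 := by
  have hp1 : p - 1 ≠ 0 := by have := D.hp.two_le; omega
  constructor
  · rintro rfl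
    rw [_root_.map_zero, zero_pow hp1] at hlam
    exact D.hp0 ((map_eq_zero _).1 hlam.symm)
  · by_contra h
    have h1 : 1 ≤ A.valuation lam ^ (p - 1) := one_le_pow₀ (not_le.1 h).le
    rw [hlam] at h1
    exact absurd D.hpA (not_lt.2 h1)

theorem exists_far_mult (I : IntData A W) (D : PData A p) (G : GalData A W σ s)
    (M : MultData A W p x0 c b' e0) (Fx : FixData W x0 e0 σ)
    {P : W.Point} (hP : P ≠ 0) (hpP : p • P = 0)
    (hint : ∀ j : ℕ, ¬ p ∣ j → A.valuation (xc (j • P)) ≤ 1) (hsP : s P ≠ P) {lam : K}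
    (hlam : A.valuation lam ^ (p - 1) = A.valuation (p : K)) :
    ∃ j : ℕ, ¬ p ∣ j ∧ j • P ≠ 0 ∧
      ((A.valuation (xc (j • P)) ≤ 1 ∧
          A.valuation lam ≤ A.valuation (σ (xc (j • P)) - xc (j • P))) ∨
        (A.valuation (yc (j • P)) ≤ 1 ∧
          A.valuation lam ≤ A.valuation (σ (yc (j • P)) - yc (j • P))) ∨
        (A.valuation ((xc (j • P) - x0) / e0 ^ 2) ≤ 1 ∧
          A.valuation lam ≤
            A.valuation (σ ((xc (j • P) - x0) / e0 ^ 2) - (xc (j • P) - x0) / e0 ^ 2))) := by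
  have v₁ := (A.valuation_le_one_iff _).2 I.h₁
  have v₂ := (A.valuation_le_one_iff _).2 I.h₂
  have v₃ := (A.valuation_le_one_iff _).2 I.h₃
  have v₄ := (A.valuation_le_one_iff _).2 I.h₄
  obtain ⟨hlam0, hlam1⟩ := lam_props D hlam
  have htors : ∀ j : ℕ, p • (s (j • P) - j • P) = 0 := by
    intro j
    rw [smul_sub, ← map_nsmul, smul_comm, hpP, smul_zero, _root_.map_zero, sub_zero]
  rcases node_or_smooth D M hP hpP hint with ⟨j, hj, hX⟩ | ⟨j, hj, hXe, hXlt, hcX⟩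
  · have hR : j • P ≠ 0 := nsmul_ne_zero_of_not_dvd D.hp hP hpP hj
    refine ⟨j, hj, hR, ?_⟩
    have hx := hint j hj
    have hy : A.valuation (yc (j • P)) ≤ 1 := y_integral A I.h₁ I.h₂ I.h₃ I.h₄ I.h₆ hR hx
    obtain ⟨hs0, hsx, hsy⟩ := G.hs _ hR
    have hns := nonsingular_of_not_node A.valuation M.H v₁ v₂ v₃ v₄ (val_two D) M.hb' M.hc1 hR hx hy
      hX
    by_contra hcon
    push Not at hcon
    obtain ⟨hdx, hdy, -⟩ := hcon
    have key := sub_eq_zero_or_large A.valuation v₁ v₂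
      hs0 hR (by rw [hsx]; exact G.val_le hx) (by rw [hsy]; exact G.val_le hy) hx hy
      hlam0 hlam1 (by rw [hsx]; exact hdx hx) (by rw [hsy]; exact hdy hy) hns
    have hne := smul_ne_of_ne D.hp hpP hsP hj
    rcases key with h | h
    · exact hne (sub_eq_zero.1 h)
    · exact absurd (val_lam_sq_mul_le I D (sub_ne_zero.2 hne) (htors j) hlam) (not_le.2 h)
  · have hR : j • P ≠ 0 := nsmul_ne_zero_of_not_dvd D.hp hP hpP hj
    refine ⟨j, hj, hR, Or.inr (Or.inr ⟨?_, ?_⟩)⟩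
    · rw [map_div₀, hXe, div_self]
      exact (A.valuation.ne_zero_iff).2 (pow_ne_zero 2 M.he0)
    · have hne := smul_ne_of_ne D.hp hpP hsP hj
      exact far_of_val_eq A.valuation M.H σ s G.hs G.hσ v₁ v₂ Fx.h₁ Fx.h₃ Fx.hx0 M.hx0 (val_two D)
        M.hb' (pow_ne_zero 2 M.he0) (by rw [map_pow, Fx.he0]) hR hXe hXlt hcX hlam0 hlam1 hne
        (val_lam_sq_mul_le I D (sub_ne_zero.2 hne) (htors j) hlam)

end Fermat.Agent.S44.ESide
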