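import Fermat.Agent.HW.AtP.Abs

/-!
# S44 / E-side at a prime `p` of MULTIPLICATIVE reduction with `p ∣ v_p(Δ)` (architect: helper39)

Goal (`ESide/Main.lean`): the analogue of `HW.AtP.exists_wild_witness` (helper52, good reduction) for the Frey curve at `p ∣ abc`.

Notation: `K` a field, `A` a valuation ring of `K` of residue characteristic `p` (odd), `v = A.valuation` (MULTIPLICATIVE notation),
`W` a Weierstrass curve over `K` with integral coefficients (`S05.IntData`), `(σ, s)` an "inertia element" acting on `K` and on the points
(`S05.GalData`).  With `X = x - x0`, `η = 2y + a₁x + a₃` the curve is `η² = X (4X² + b' X + 4c)` (`S05.ShiftData`), `b'` a unit, `v c < 1`: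
the node of the reduction is `X = 0`.  `v c = v e0 ^ p` with `e0` fixed by inertia ("peu ramifié").

A nonzero point `P` is
* *non-integral*  if `1 < v (x P)`,
* *at the node*   if `v (x P - x0) < 1`,
* otherwise (`v (x P - x0) = 1`) it has non-singular reduction (`S05.nonsingular_of_not_node`).
-/

set_option autoImplicit false

namespace Fermat.Agent.S44.ESide

open WeierstrassCurve WeierstrassCurve.Affine WeierstrassCurve.Affine.Point
open Fermat.Agent.S05 Fermat.Agent.HW.AtP

variable {K : Type*} [Field K]

/-- multiplicative reduction with node at `x = x0`, node parameter `c`, `v c = v e0 ^ p`. -/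
structure MultData (A : ValuationSubring K) (W : WeierstrassCurve.Affine K) (p : ℕ)
    (x0 c b' e0 : K) : Prop where
  H : ShiftData W x0 c b'
  hx0 : A.valuation x0 ≤ 1
  hb' : A.valuation b' = 1
  he0 : e0 ≠ 0
  hcv : A.valuation c = A.valuation e0 ^ p
  hc1 : A.valuation c < 1

/-- `σ` fixes the constants of the situation. -/
structure FixData (W : WeierstrassCurve.Affine K) (x0 e0 : K) (σ : K →+* K) : Prop where
  h₁ : σ W.a₁ = W.a₁
  h₃ : σ W.a₃ = W.a₃
  hx0 : σ x0 = x0
  he0 : σ e0 = e0

end Fermat.Agent.S44.ESide
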