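import Fermat.Agent.S44.ESide.Defs
import Fermat.Agent.S05.Frey

/-!
# S44 / E-side : the Frey curve at `p ∣ abc` is a `MultData` (copy of the case analysis of `S05.frey_fixed` with `q = p`)
-/

set_option autoImplicit false

namespace Fermat.Agent.S44.ESide

open WeierstrassCurve WeierstrassCurve.Affine WeierstrassCurve.Affine.Point
open Fermat.Agent.S05 Fermat.Agent.HW.AtP

variable {K : Type*} [Field K] {A : ValuationSubring K}
  {W : WeierstrassCurve.Affine K} {p : ℕ}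

theorem frey_multData (D : PData A p)
    (a b c : ℤ) (ha0 : a ≠ 0) (hb0 : b ≠ 0) (hc0 : c ≠ 0) (hchar : ∀ n : ℤ, n ≠ 0 → (n : K) ≠ 0)
    (habc : a ^ p + b ^ p = c ^ p)
    (hab : ¬ ((p : ℤ) ∣ a ∧ (p : ℤ) ∣ b)) (hdvd : (p : ℤ) ∣ a * b * c)
    (ha₁ : W.a₁ = 1) (ha₂ : W.a₂ = ((b : K) ^ p - 1 - (a : K) ^ p) / 4) (ha₃ : W.a₃ = 0)
    (ha₄ : W.a₄ = -((a : K) ^ p) * ((b : K) ^ p) / 16) (ha₆ : W.a₆ = 0) :
    IntData A W ∧ ∃ x0 c' b' e0 : K, MultData A W p x0 c' b' e0 ∧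
      ∀ σ : K →+* K, FixData W x0 e0 σ := by
  have hq := D.hp
  have hqA := D.hpA
  have hq2 := D.hp2
  have hp0 : p ≠ 0 := D.hp.ne_zero
  have hqi : Prime (p : ℤ) := Nat.prime_iff_prime_int.1 hq
  have hpow2 : ∀ k : ℕ, A.valuation ((2 : K) ^ k) = 1 := by
    intro k
    have := valuation_natCast_eq_one A hq hqA (n := 2) (by
      intro h; exact hq2 ((Nat.prime_dvd_prime_iff_eq hq Nat.prime_two).1 h))
    rw [map_pow]
    simp only [Nat.cast_ofNat] at this
    rw [this, one_pow]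
  have h2 : A.valuation (2 : K) = 1 := by simpa using hpow2 1
  have h4 : A.valuation (4 : K) = 1 := by
    have := hpow2 2; norm_num at this; exact this
  have h8 : A.valuation (8 : K) = 1 := by
    have := hpow2 3; norm_num at this; exact this
  have n8 : (8 : K) ≠ 0 := (A.valuation.ne_zero_iff).1 (by rw [h8]; exact one_ne_zero)
  have h16 : A.valuation (16 : K) = 1 := by
    have := hpow2 4; norm_num at this; exact this
  have n2 : (2 : K) ≠ 0 := (A.valuation.ne_zero_iff).1 (by rw [h2]; exact one_ne_zero)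
  have n4 : (4 : K) ≠ 0 := (A.valuation.ne_zero_iff).1 (by rw [h4]; exact one_ne_zero)
  have n16 : (16 : K) ≠ 0 := (A.valuation.ne_zero_iff).1 (by rw [h16]; exact one_ne_zero)
  obtain ⟨α, hα⟩ : ∃ α : K, α = (a : K) ^ p := ⟨_, rfl⟩
  obtain ⟨β, hβ⟩ : ∃ β : K, β = (b : K) ^ p := ⟨_, rfl⟩
  have hγ : α + β = (c : K) ^ p := by
    rw [hα, hβ]; exact_mod_cast congrArg (Int.cast : ℤ → K) habc
  rw [← hα, ← hβ] at ha₂ ha₄
  have vα : A.valuation α = A.valuation (a : K) ^ p := by rw [hα, map_pow]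
  have vβ : A.valuation β = A.valuation (b : K) ^ p := by rw [hβ, map_pow]
  have vγ : A.valuation (α + β) = A.valuation (c : K) ^ p := by rw [hγ, map_pow]
  have vα1 : A.valuation α ≤ 1 := by rw [vα]; exact pow_le_one' (valuation_intCast_le_one A a) p
  have vβ1 : A.valuation β ≤ 1 := by rw [vβ]; exact pow_le_one' (valuation_intCast_le_one A b) p
  have σα : ∀ σ : K →+* K, σ α = α := by intro σ; rw [hα]; simp
  -- integrality
  have I : IntData A W := by
    refine ⟨?_, ?_, ?_, ?_, ?_⟩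
    · rw [ha₁]; exact A.one_mem
    · rw [ha₂, ← A.valuation_le_one_iff, map_div₀, h4, div_one]
      exact Valuation.map_sub_le _ (Valuation.map_sub_le _ vβ1 (by simp)) vα1
    · rw [ha₃]; exact A.zero_mem
    · rw [ha₄, ← A.valuation_le_one_iff, map_div₀, h16, div_one, map_mul, Valuation.map_neg]
      exact mul_le_one' vα1 vβ1
    · rw [ha₆]; exact A.zero_mem
  refine ⟨I, ?_⟩
  have hb₂ : W.b₂ = β - α := by
    simp only [WeierstrassCurve.b₂, ha₁, ha₂]; field_simp; ring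
  have hb₄ : W.b₄ = -α * β / 8 := by
    simp only [WeierstrassCurve.b₄, ha₁, ha₃, ha₄]; field_simp; ring
  have hb₆ : W.b₆ = 0 := by
    simp only [WeierstrassCurve.b₆, ha₃, ha₆]; ring
  have hσ₁ : ∀ σ : K →+* K, σ W.a₁ = W.a₁ := by intro σ; rw [ha₁, map_one]
  have hσ₃ : ∀ σ : K →+* K, σ W.a₃ = W.a₃ := by intro σ; rw [ha₃, _root_.map_zero]
  -- divisibility facts
  have hac : ¬ ((p : ℤ) ∣ a ∧ (p : ℤ) ∣ c) := by
    rintro ⟨h1, h2⟩
    apply hab ⟨h1, ?_⟩
    have h3 : (p : ℤ) ∣ b ^ p := by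
      have : b ^ p = c ^ p - a ^ p := by linarith
      rw [this]
      exact dvd_sub (dvd_pow h2 hp0) (dvd_pow h1 hp0)
    exact hqi.dvd_of_dvd_pow h3
  have unit_of : ∀ n : ℤ, ¬ (p : ℤ) ∣ n → A.valuation (n : K) ^ p = 1 := by
    intro n hn; rw [valuation_intCast_eq_one A hq hqA hn, one_pow]
  have lt_of : ∀ n : ℤ, (p : ℤ) ∣ n → A.valuation (n : K) ^ p < 1 := by
    intro n hn
    exact pow_lt_one₀ zero_le (valuation_intCast_lt_one A hqA hn) hp0
  by_cases hqa : (p : ℤ) ∣ a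
  · -- node at `x = 0`
    have hqb : ¬ (p : ℤ) ∣ b := fun h => hab ⟨hqa, h⟩
    have H : ShiftData W 0 (-α * β / 16) (β - α) := by
      refine ⟨by rw [hb₆]; ring, by rw [hb₄]; field_simp; ring, by rw [hb₂]; ring, n2⟩
    refine ⟨0, -α * β / 16, β - α, (a : K), ⟨H, by simp, ?_, hchar a ha0, ?_, ?_⟩,
      fun σ => ⟨hσ₁ σ, hσ₃ σ, _root_.map_zero σ, map_intCast σ a⟩⟩
    · rw [Valuation.map_sub_eq_of_lt_left, vβ, unit_of b hqb]
      rw [vα, vβ, unit_of b hqb]; exact lt_of a hqa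
    · rw [map_div₀, h16, div_one, map_mul, Valuation.map_neg, vα, vβ, unit_of b hqb, mul_one]
    · rw [map_div₀, h16, div_one, map_mul, Valuation.map_neg, vα, vβ, unit_of b hqb, mul_one]
      exact lt_of a hqa
  by_cases hqb : (p : ℤ) ∣ b
  · have H : ShiftData W 0 (-α * β / 16) (β - α) := by
      refine ⟨by rw [hb₆]; ring, by rw [hb₄]; field_simp; ring, by rw [hb₂]; ring, n2⟩
    refine ⟨0, -α * β / 16, β - α, (b : K), ⟨H, by simp, ?_, hchar b hb0, ?_, ?_⟩,
      fun σ => ⟨hσ₁ σ, hσ₃ σ, _root_.map_zero σ, map_intCast σ b⟩⟩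
    · rw [Valuation.map_sub_eq_of_lt_right, vα, unit_of a hqa]
      rw [vα, vβ, unit_of a hqa]; exact lt_of b hqb
    · rw [map_div₀, h16, div_one, map_mul, Valuation.map_neg, vα, vβ, unit_of a hqa, one_mul]
    · rw [map_div₀, h16, div_one, map_mul, Valuation.map_neg, vα, vβ, unit_of a hqa, one_mul]
      exact lt_of b hqb
  · have hqc : (p : ℤ) ∣ c := by
      rcases hqi.dvd_or_dvd hdvd with h | h
      · rcases hqi.dvd_or_dvd h with h | h
        · exact absurd h hqa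
        · exact absurd h hqb
      · exact h
    have H : ShiftData W (α / 4) (α * (α + β) / 16) (α + (α + β)) := by
      refine ⟨by rw [hb₆, hb₂, hb₄]; field_simp; ring, by rw [hb₄, hb₂]; field_simp; ring,
        by rw [hb₂]; field_simp; ring, n2⟩
    refine ⟨α / 4, α * (α + β) / 16, α + (α + β), (c : K), ⟨H, ?_, ?_, hchar c hc0, ?_, ?_⟩,
      fun σ => ⟨hσ₁ σ, hσ₃ σ, by rw [map_div₀, σα, map_ofNat], map_intCast σ c⟩⟩
    · rw [map_div₀, h4, div_one]; exact vα1
    · rw [Valuation.map_add_eq_of_lt_left, vα, unit_of a hqa]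
      rw [vα, vγ, unit_of a hqa]; exact lt_of c hqc
    · rw [map_div₀, h16, div_one, map_mul, vα, vγ, unit_of a hqa, one_mul]
    · rw [map_div₀, h16, div_one, map_mul, vα, vγ, unit_of a hqa, one_mul]
      exact lt_of c hqc

end Fermat.Agent.S44.ESide
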