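import Fermat.Agent.S44.ESide.Abs
import Fermat.Agent.S44.ESide.Frey
import Fermat.Agent.HW.AtP.Main

/-!
# S44 / E-side : `(E')` for the Frey curve at `p ∣ abc`

`frey_wild_witness` = the analogue of `HW.AtP.exists_wild_witness` (good reduction) for the Frey curve at `p ∣ abc`
(multiplicative reduction, `p ∣ v_p(Δ)`): `t ≠ 0` in `E[p]` on which inertia `I` at `A ∣ p` acts through the cyclotomic character;
`σ ∈ I` fixes `ζ_p` and moves `Q ∈ E[p]`.  Then there is an integer `b`, fixed by every `τ` fixing `Q`, with `σ b - b ∉ (ζ - 1) 𝔪_A`.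
-/

set_option autoImplicit false

namespace Fermat.Agent.S44.ESide

open WeierstrassCurve WeierstrassCurve.Affine WeierstrassCurve.Affine.Point
open Fermat.Agent.S05 Fermat.Agent.HW Fermat.Agent.HW.AtP
open scoped WeierstrassCurve.Affine

local notation "Qb" => AlgebraicClosure ℚ

variable {p : ℕ} {A : ValuationSubring Qb}

theorem galData_Q (E : WeierstrassCurve ℚ) (A : ValuationSubring Qb) {σ : Qb ≃ₐ[ℚ] Qb}
    (hσ : σ ∈ A.inertiaSubgroupIn ℚ) :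
    GalData A (E.toAffine⁄Qb) (σ : Qb →+* Qb) (Point.map (W' := E.toAffine) σ.toAlgHom) := by
  refine ⟨?_, ?_⟩
  · intro Q hQ
    cases Q with
    | zero => exact absurd rfl hQ
    | some x y h =>
      rw [Point.map_some]
      exact ⟨some_ne_zero _, rfl, rfl⟩
  · intro x hx
    exact inertia_spec A σ hσ x hx

lemma smul_eq_map_Q (E : WeierstrassCurve ℚ) (σ : Qb ≃ₐ[ℚ] Qb) (P : (E.toAffine⁄Qb).Point) :
    σ • P = Point.map (W' := E.toAffine) σ.toAlgHom P := rfl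

lemma coord_fixed (E : WeierstrassCurve ℚ) {P : (E.toAffine⁄Qb).Point} (hP : P ≠ 0)
    {τ : Qb ≃ₐ[ℚ] Qb} (hτ : τ • P = P) : τ (xc P) = xc P ∧ τ (yc P) = yc P := by
  cases P with
  | zero => exact absurd rfl hP
  | some x y h =>
    have h1 : Point.map (W' := E.toAffine) τ.toAlgHom (Point.some x y h) = Point.some x y h := hτ
    rw [Point.map_some] at h1
    have h2 := Point.some.inj h1
    exact ⟨h2.1, h2.2⟩

/-- an exponent `c ≢ 1` of the cyclotomic character on inertia. -/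
lemma exists_inertia_exponent (hp : p.Prime) (hp2 : p ≠ 2) (hA : A.LiesOverPrime p) {ζ : Qb}
    (hζ : IsPrimitiveRoot ζ p) :
    ∃ τ ∈ A.inertiaSubgroupIn ℚ, ∃ c : ℕ, τ ζ = ζ ^ c ∧ ¬ (p : ℤ) ∣ (c : ℤ) - 1 := by
  have : NeZero p := ⟨hp.ne_zero⟩
  obtain ⟨τ, hτ, hτζ⟩ := exists_inertia_zeta_ne hp hp2 hA hζ
  have hpow : (τ ζ) ^ p = 1 := by rw [← map_pow, hζ.pow_eq_one, map_one]
  obtain ⟨c, -, hc⟩ := hζ.eq_pow_of_pow_eq_one hpow
  refine ⟨τ, hτ, c, hc.symm, ?_⟩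
  intro hd
  apply hτζ
  rw [← hc]
  have hc0 : 1 ≤ c := by
    rcases Nat.eq_zero_or_pos c with rfl | h
    · exfalso
      have h1 : (p : ℤ) ∣ 1 := by simpa using hd
      have h2 : p ∣ 1 := by exact_mod_cast h1
      have := hp.two_le
      have := Nat.dvd_one.1 h2
      omega
    · exact h
  obtain ⟨m, hm⟩ : p ∣ c - 1 := by
    have : ((c - 1 : ℕ) : ℤ) = (c : ℤ) - 1 := by omega
    rw [← this] at hd
    exact_mod_cast hd
  have hc' : c = 1 + p * m := by omega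
  rw [hc', pow_add, pow_mul, hζ.pow_eq_one, one_pow, pow_one, mul_one]

/-- the abstract statement over `ℚbar`, for a curve over `ℚ` which is a `MultData` at `A`. -/
theorem wild_witness_of_multData (E : WeierstrassCurve ℚ) (hp : p.Prime) (hp2 : p ≠ 2)
    (hA : A.LiesOverPrime p) (I : IntData A (E.toAffine⁄Qb)) {x0 c' b' e0 : Qb}
    (M : MultData A (E.toAffine⁄Qb) p x0 c' b' e0)
    (Fx : ∀ σ : Qb →+* Qb, FixData (E.toAffine⁄Qb) x0 e0 σ)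
    {ζ : Qb} (hζ : IsPrimitiveRoot ζ p)
    {t Q : (E.toAffine⁄Qb).Point} (ht : t ≠ 0) (hpt : p • t = 0) (hpQ : p • Q = 0)
    (hχ : ∀ τ ∈ A.inertiaSubgroupIn ℚ, ∀ c : ℕ, τ ζ = ζ ^ c → τ • t = c • t)
    {σ : Qb ≃ₐ[ℚ] Qb} (hσ : σ ∈ A.inertiaSubgroupIn ℚ) (hσζ : σ ζ = ζ) (hσQ : σ • Q ≠ Q) :
    ∃ b : Qb, b ∈ A ∧ (∀ τ : Qb ≃ₐ[ℚ] Qb, τ • Q = Q → τ b = b) ∧
      A.valuation (ζ - 1) ≤ A.valuation (σ b - b) := by
  classical
  have : NeZero p := ⟨hp.ne_zero⟩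
  have D := pData hp hp2 hA
  -- `t` is not integral
  obtain ⟨τ₀, hτ₀, c₀, hc₀, hc₀1⟩ := exists_inertia_exponent hp hp2 hA hζ
  have hxt : 1 < A.valuation (xc t) :=
    nonintegral_of_eigen_mult I D (galData_Q E A hτ₀) M (Fx _) ht hpt hc₀1 (hχ τ₀ hτ₀ c₀ hc₀)
  have hQ : Q ≠ 0 := by
    rintro rfl
    exact hσQ (smul_eq_map_Q E σ 0 ▸ _root_.map_zero _)
  have hσt : σ • t = t := by
    have := hχ σ hσ 1 (by rw [hσζ, pow_one])
    rwa [one_smul] at this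
  have hQt : ∀ k : ℕ, Q ≠ k • t := by
    rintro k rfl
    apply hσQ
    rw [smul_eq_map_Q, map_nsmul, ← smul_eq_map_Q, hσt]
  have hstab : ∀ τ ∈ A.inertiaSubgroupIn ℚ, ∃ c : ℕ, τ • t = c • t := by
    intro τ hτ
    have hpow : (τ ζ) ^ p = 1 := by rw [← map_pow, hζ.pow_eq_one, map_one]
    obtain ⟨c, -, hc⟩ := hζ.eq_pow_of_pow_eq_one hpow
    exact ⟨c, hχ τ hτ c hc.symm⟩
  have hN : 1 ≤ A.valuation ((p : ℕ) : Qb) * A.valuation (∏ x ∈ lineX t (p - 1), x) := by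
    refine one_le_val_p_mul_of_fixed hp hA ?_ (one_lt_val_prod_lineX I D ht hxt)
    intro τ hτ
    obtain ⟨c, hc⟩ := hstab τ hτ
    exact prod_lineX_fixed hp (galData_Q E A hτ).hs ht hpt hc
  -- all prime-to-`p` multiples of `Q` are integral
  have hint : ∀ j : ℕ, ¬ p ∣ j → A.valuation (xc (j • Q)) ≤ 1 := by
    intro j hj
    refine integral_of_not_mem_line I D ht hpt hxt (nsmul_ne_zero_of_not_dvd hp hQ hpQ hj)
      (by rw [smul_comm, hpQ, smul_zero]) ?_ hN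
    intro k hk
    obtain ⟨m, -, hm⟩ := exists_inv_nsmul hp hpQ hj
    apply hQt (m * k)
    rw [mul_smul, ← hk, hm]
  have hlam : A.valuation (ζ - 1) ^ (p - 1) = A.valuation ((p : ℕ) : Qb) := by
    rw [← S36.valuation_one_sub_zeta_pow hp hA hζ, ← Valuation.map_neg, neg_sub]
  obtain ⟨j, hj, hR, h⟩ := exists_far_mult I D (galData_Q E A hσ) M (Fx _) hQ hpQ hint hσQ hlam
  have hfix : ∀ τ : Qb ≃ₐ[ℚ] Qb, τ • Q = Q →
      τ (xc (j • Q)) = xc (j • Q) ∧ τ (yc (j • Q)) = yc (j • Q) := by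
    intro τ hτ
    refine coord_fixed E hR ?_
    rw [smul_eq_map_Q, map_nsmul, ← smul_eq_map_Q, hτ]
  rcases h with ⟨h1, h2⟩ | ⟨h1, h2⟩ | ⟨h1, h2⟩
  · exact ⟨_, (A.valuation_le_one_iff _).1 h1, fun τ hτ => (hfix τ hτ).1, h2⟩
  · exact ⟨_, (A.valuation_le_one_iff _).1 h1, fun τ hτ => (hfix τ hτ).2, h2⟩
  · refine ⟨_, (A.valuation_le_one_iff _).1 h1, fun τ hτ => ?_, h2⟩
    have e1 : τ x0 = x0 := (Fx (τ : Qb →+* Qb)).hx0
    have e2 : τ e0 = e0 := (Fx (τ : Qb →+* Qb)).he0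
    rw [map_div₀, map_sub, map_pow, (hfix τ hτ).1, e1, e2]

/-- **(E') for the Frey curve at `p ∣ abc`.** -/
theorem frey_wild_witness (P : FreyPackage) (hdvd : (P.p : ℤ) ∣ P.a * P.b * P.c)
    (hA : A.LiesOverPrime P.p) {ζ : Qb} (hζ : IsPrimitiveRoot ζ P.p)
    {t Q : (P.freyCurve.toAffine⁄Qb).Point} (ht : t ≠ 0) (hpt : P.p • t = 0) (hpQ : P.p • Q = 0)
    (hχ : ∀ τ ∈ A.inertiaSubgroupIn ℚ, ∀ c : ℕ, τ ζ = ζ ^ c → τ • t = c • t)
    {σ : Qb ≃ₐ[ℚ] Qb} (hσ : σ ∈ A.inertiaSubgroupIn ℚ) (hσζ : σ ζ = ζ) (hσQ : σ • Q ≠ Q) :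
    ∃ b : Qb, b ∈ A ∧ (∀ τ : Qb ≃ₐ[ℚ] Qb, τ • Q = Q → τ b = b) ∧
      A.valuation (ζ - 1) ≤ A.valuation (σ b - b) := by
  have hp2 : P.p ≠ 2 := by have := P.hp5; omega
  have hab : ¬ ((P.p : ℤ) ∣ P.a ∧ (P.p : ℤ) ∣ P.b) := by
    rintro ⟨h1, h2⟩
    have h3 : (P.p : ℤ) ∣ gcd P.a P.b := dvd_gcd h1 h2
    rw [P.hgcdab] at h3
    exact (Nat.prime_iff_prime_int.1 P.pp).not_isUnit (isUnit_of_dvd_one h3)
  obtain ⟨I, x0, c', b', e0, M, Fx⟩ := frey_multData (A := A) (W := P.freyCurve.toAffine⁄Qb)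
    (pData P.pp hp2 hA) P.a P.b P.c P.ha0 P.hb0 P.hc0 (fun n hn => by exact_mod_cast hn) P.hFLT hab
    hdvd (by simp [FreyPackage.freyCurve]) (by simp [FreyPackage.freyCurve])
    (by simp [FreyPackage.freyCurve]) (by simp [FreyPackage.freyCurve])
    (by simp [FreyPackage.freyCurve])
  exact wild_witness_of_multData P.freyCurve P.pp hp2 hA I M Fx hζ ht hpt hpQ hχ hσ hσζ hσQ

end Fermat.Agent.S44.ESide
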